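import Fermat.Agent.S40x.R2.KFB.Abstract
import Fermat.Agent.Gateway.Kummer.GalLevel
import Fermat.Agent.Gateway.BaseChange.ModularConst
import Fermat.Agent.Gateway.S31.FromExport
import Fermat.Agent.S19x.Geo.CuspOrd

/-!
# P-S44/S40, block C3, leaf (KF), independent second (helper49): Kummer functions of torsion
classes of `J₀(N)` inside `ℚ̄((q))`

`F := modularFunctionFieldBar N ⊆ ℚ̄((q))`, `Γ = Gal(ℚ̄/ℚ)` acting by `coeffMap` on `q`-expansions,
`x : JTors N p` (the `p`-torsion of `Pic⁰`).

* `exists_kummer`            : every `x : JTors N p` has a Kummer function `u ∈ F` (`div u = p D`, `x = [D]`);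
* `exists_normalized_kummer` : which may be taken with leading `q`-coefficient `1`;
* `kummer_unique`  (KF0)     : two Kummer functions of `x` differ by a `p`-th power of `F`;
* `kf1`            (KF1)     : `τ x - x = j • l₀`  ⟹  `coeffMap τ u = u * u₀ ^ j * k ^ p`, `k ∈ F`;
* `kf2`            (KF2)     : `τ l₀ = a • l₀`    ⟹  `coeffMap τ u₀ = u₀ ^ a * k ^ p`, `k ∈ F`;
* `kf3`            (KF3)     : `p ∣ ord_v u` at every place `v` of `F / ℚ̄`;
* `kf3_order`                : in particular `p ∣ ord_q u` (the cusp `∞`);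
* `kf4`            (KF4)     : `u` is fixed by an open subgroup; `kf4_subgroup`: a normal subgroup of
                               finite index of any subgroup `G ≤ Γ` fixing finitely many elements of `F`.
-/

set_option autoImplicit false
set_option linter.unusedSectionVars false

noncomputable section

namespace Fermat.Agent.S40x.R2.KFB

open AlgebraicCurve ModularCurve HahnSeries Fermat.Agent.Gateway.Kummer
open Fermat.Agent.Gateway.S31Red

local notation "Qb" => AlgebraicClosure ℚ
local notation "Γℚ" => (AlgebraicClosure ℚ ≃ₐ[ℚ] AlgebraicClosure ℚ)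

local instance isAlgebraicQb_kfb : Algebra.IsAlgebraic ℚ (AlgebraicClosure ℚ) :=
  AlgebraicClosure.isAlgebraic ℚ

variable (N : ℕ) [NeZero N] {p : ℕ}

/-- functions without zeros and poles are constants -/
theorem hconst_bar (g : modularFunctionFieldBar N) (hg : g ≠ 0)
    (h : ∀ v : Place Qb (modularFunctionFieldBar N), v.ord g = 0) :
    ∃ c : Qb, g = algebraMap Qb (modularFunctionFieldBar N) c :=
  Fermat.Agent.Gateway.BaseChange.ModularConst.hconst_FL Qb N g hg h

variable {N}

/-- the class of a torsion point is killed by `p` -/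
theorem zsmul_coe_eq_zero (x : JTors N p) : (p : ℤ) • (x : JZero N) = 0 :=
  Pic0.mem_torsion.mp x.2

/-- every `p`-torsion class has a Kummer function -/
theorem exists_kummer (x : JTors N p) :
    ∃ u : modularFunctionFieldBar N, IsKummerRep p (x : JZero N) u :=
  exists_isKummerRep (zsmul_coe_eq_zero x)

/-- **(KF0)** two Kummer functions of the same class differ by a `p`-th power -/
theorem kummer_unique (hp : 0 < p) {x : JZero N} {u v : modularFunctionFieldBar N}
    (hu : IsKummerRep p x u) (hv : IsKummerRep p x v) :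
    ∃ k : modularFunctionFieldBar N, k ≠ 0 ∧ u = v * k ^ p :=
  exists_eq_mul_pow (hconst_bar N) hp hu hv

theorem coe_smul_eq_coeffMap (τ : Γℚ) (u : modularFunctionFieldBar N) :
    ((arithmeticGalois (modularFunctionFieldFull N) τ • u : modularFunctionFieldBar N) :
        LaurentSeries Qb) = coeffMap (τ : Qb →+* Qb) (u : LaurentSeries Qb) :=
  rfl

/-- **(KF1)** If `τ x - x = j • l₀` then `τ u = u * u₀ ^ j * k ^ p` on `q`-expansions. -/
theorem kf1 (hp : 0 < p) (τ : Γℚ) {x l₀ : JTors N p} {u u₀ : modularFunctionFieldBar N}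
    (hu : IsKummerRep p (x : JZero N) u) (hu₀ : IsKummerRep p (l₀ : JZero N) u₀) (j : ℕ)
    (h : galTors N p τ x - x = j • l₀) :
    ∃ k : modularFunctionFieldBar N, k ≠ 0 ∧
      coeffMap (τ : Qb →+* Qb) (u : LaurentSeries Qb) =
        (u : LaurentSeries Qb) * (u₀ : LaurentSeries Qb) ^ j * (k : LaurentSeries Qb) ^ p := by
  have h' : arithmeticGalois (modularFunctionFieldFull N) τ • (x : JZero N) - (x : JZero N)
      = j • (l₀ : JZero N) := by
    have := congrArg (fun y : JTors N p => (y : JZero N)) h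
    simp only [AddSubgroupClass.coe_sub, coe_galTors_apply, AddSubmonoidClass.coe_nsmul] at this
    exact this
  obtain ⟨k, hk, hk'⟩ := smul_eq_mul_pow_mul_pow (hconst_bar N) hp
    (arithmeticGalois (modularFunctionFieldFull N) τ) hu hu₀ j h'
  refine ⟨k, hk, ?_⟩
  rw [← coe_smul_eq_coeffMap, hk']
  rfl

/-- **(KF2)** If `τ l₀ = a • l₀` then `τ u₀ = u₀ ^ a * k ^ p` on `q`-expansions. -/
theorem kf2 (hp : 0 < p) (τ : Γℚ) {l₀ : JTors N p} {u₀ : modularFunctionFieldBar N}
    (hu₀ : IsKummerRep p (l₀ : JZero N) u₀) (a : ℕ) (h : galTors N p τ l₀ = a • l₀) :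
    ∃ k : modularFunctionFieldBar N, k ≠ 0 ∧
      coeffMap (τ : Qb →+* Qb) (u₀ : LaurentSeries Qb) =
        (u₀ : LaurentSeries Qb) ^ a * (k : LaurentSeries Qb) ^ p := by
  have h' : arithmeticGalois (modularFunctionFieldFull N) τ • (l₀ : JZero N)
      = a • (l₀ : JZero N) := by
    have := congrArg (fun y : JTors N p => (y : JZero N)) h
    simp only [coe_galTors_apply, AddSubmonoidClass.coe_nsmul] at this
    exact this
  obtain ⟨k, hk, hk'⟩ := smul_eq_pow_mul_pow (hconst_bar N) hp
    (arithmeticGalois (modularFunctionFieldFull N) τ) hu₀ a h'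
  refine ⟨k, hk, ?_⟩
  rw [← coe_smul_eq_coeffMap, hk']
  rfl

/-- **(KF3)** the order of a Kummer function is divisible by `p` at every place -/
theorem kf3 {x : JZero N} {u : modularFunctionFieldBar N} (hu : IsKummerRep p x u)
    (v : Place Qb (modularFunctionFieldBar N)) : (p : ℤ) ∣ v.ord u :=
  hu.dvd_ord v

/-- in particular the `q`-order of a Kummer function is divisible by `p` -/
theorem kf3_order {x : JZero N} {u : modularFunctionFieldBar N} (hu : IsKummerRep p x u) :
    (p : ℤ) ∣ (u : LaurentSeries Qb).order := by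
  have h := hu.dvd_ord (Fermat.Agent.S19x.Geo.CuspOo.ooPlace Qb N)
  rwa [Fermat.Agent.S19x.Geo.CuspOrd.ord_ooPlace hu.ne_zero] at h

/-- **(KF4)** every element of `F` is fixed by an open subgroup of `Γ` -/
theorem kf4 (u : modularFunctionFieldBar N) :
    ∃ K : IntermediateField ℚ Qb, FiniteDimensional ℚ K ∧
      ∀ σ : Γℚ, (∀ a ∈ K, σ a = a) → coeffMap (σ : Qb →+* Qb) (u : LaurentSeries Qb) = u :=
  exists_finiteDimensional_fixing (modularFunctionFieldFull N) u.2

end Fermat.Agent.S40x.R2.KFB
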