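import Fermat.Agent.Gateway.Kummer.Basic

/-!
# P-S44/S40, block C3, leaf (KF), independent second (helper49): Kummer functions, abstract part

`K` an algebraically closed field, `F / K` a function field in the vocabulary of the prelude
(`Place K F`, `Pic0 K F`), `hconst` : functions without zeros and poles are constants.

* `exists_eq_mul_pow` (KF0): two Kummer functions (exponent `m`) of the same class differ by an
  `m`-th power (constants are `m`-th powers).
* `smul_eq_mul_pow_mul_pow` (KF1, abstract): if `g • x - x = j • l₀` then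
  `g • u = u * u₀ ^ j * k ^ m` for Kummer functions `u` of `x` and `u₀` of `l₀`.
* `smul_eq_pow_mul_pow` (KF2, abstract): if `g • l₀ = a • l₀` then `g • u₀ = u₀ ^ a * k ^ m`.
* `dvd_ord` (KF3): `m ∣ ord_v u` at every place.
-/

set_option autoImplicit false

noncomputable section

namespace Fermat.Agent.S40x.R2.KFB

open AlgebraicCurve Fermat.Agent.Gateway.Kummer

variable {K F : Type*} [Field K] [Field F] [Algebra K F]

/-- A Kummer function of the trivial class is an `m`-th power. -/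
theorem exists_eq_pow_of_zero [IsAlgClosed K]
    (hconst : ∀ g : F, g ≠ 0 → (∀ v : Place K F, v.ord g = 0) → ∃ c : K, g = algebraMap K F c)
    {m : ℕ} (hm : 0 < m) {f : F} (hf : IsKummerRep m (0 : Pic0 K F) f) :
    ∃ g : F, g ≠ 0 ∧ f = g ^ m := by
  obtain ⟨hne, D, hD0, hD⟩ := hf
  rw [mk_eq_zero_iff] at hD0
  obtain ⟨g₀, hg₀, hDg⟩ := hD0
  have hpow : g₀ ^ m ≠ 0 := pow_ne_zero _ hg₀
  have hq : ∀ v : Place K F, v.ord (f * (g₀ ^ m)⁻¹) = 0 := by
    intro v
    rw [v.ord_mul hne (inv_ne_zero hpow), v.ord_inv, ← zpow_natCast, v.ord_zpow, ← hD v, hDg v]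
    ring
  obtain ⟨c, hc⟩ := hconst _ (mul_ne_zero hne (inv_ne_zero hpow)) hq
  have hc0 : c ≠ 0 := by
    rintro rfl
    rw [map_zero] at hc
    exact (mul_ne_zero hne (inv_ne_zero hpow)) hc
  obtain ⟨μ, hμ⟩ := IsAlgClosed.exists_pow_nat_eq c hm
  have hμ0 : μ ≠ 0 := by
    rintro rfl
    rw [zero_pow hm.ne'] at hμ
    exact hc0 hμ.symm
  refine ⟨algebraMap K F μ * g₀, mul_ne_zero ((map_ne_zero _).mpr hμ0) hg₀, ?_⟩
  rw [mul_pow, ← map_pow, hμ, ← hc, mul_assoc, inv_mul_cancel₀ hpow, mul_one]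

/-- **(KF0)** Two Kummer functions of the same class differ by an `m`-th power. -/
theorem exists_eq_mul_pow [IsAlgClosed K]
    (hconst : ∀ g : F, g ≠ 0 → (∀ v : Place K F, v.ord g = 0) → ∃ c : K, g = algebraMap K F c)
    {m : ℕ} (hm : 0 < m) {x : Pic0 K F} {u v : F} (hu : IsKummerRep m x u)
    (hv : IsKummerRep m x v) : ∃ k : F, k ≠ 0 ∧ u = v * k ^ m := by
  have h0 := hu.div hv
  rw [sub_self] at h0
  obtain ⟨k, hk, hkm⟩ := exists_eq_pow_of_zero hconst hm h0
  refine ⟨k, hk, ?_⟩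
  rw [← hkm, mul_div_cancel₀ _ hv.ne_zero]

/-- **(KF1, abstract)** If `g • x - x = j • l₀`, the transform of a Kummer function of `x` is the
function times the `j`-th power of a Kummer function of `l₀`, times an `m`-th power. -/
theorem smul_eq_mul_pow_mul_pow [IsAlgClosed K]
    (hconst : ∀ g : F, g ≠ 0 → (∀ v : Place K F, v.ord g = 0) → ∃ c : K, g = algebraMap K F c)
    {m : ℕ} (hm : 0 < m) (g : SemilinearAut K F) {x l₀ : Pic0 K F} {u u₀ : F}
    (hu : IsKummerRep m x u) (hu₀ : IsKummerRep m l₀ u₀) (j : ℕ) (h : g • x - x = j • l₀) :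
    ∃ k : F, k ≠ 0 ∧ g • u = u * u₀ ^ j * k ^ m := by
  have h1 : IsKummerRep m (g • x) (g • u) := hu.smul g
  have h2 : IsKummerRep m (x + j • l₀) (u * u₀ ^ j) := hu.mul (hu₀.pow j)
  have h3 : g • x = x + j • l₀ := by rw [← h]; abel
  rw [h3] at h1
  exact exists_eq_mul_pow hconst hm h1 h2

/-- **(KF2, abstract)** If `g • l₀ = a • l₀`, the transform of a Kummer function of `l₀` is its
`a`-th power times an `m`-th power. -/
theorem smul_eq_pow_mul_pow [IsAlgClosed K]
    (hconst : ∀ g : F, g ≠ 0 → (∀ v : Place K F, v.ord g = 0) → ∃ c : K, g = algebraMap K F c)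
    {m : ℕ} (hm : 0 < m) (g : SemilinearAut K F) {l₀ : Pic0 K F} {u₀ : F}
    (hu₀ : IsKummerRep m l₀ u₀) (a : ℕ) (h : g • l₀ = a • l₀) :
    ∃ k : F, k ≠ 0 ∧ g • u₀ = u₀ ^ a * k ^ m := by
  have h1 : IsKummerRep m (g • l₀) (g • u₀) := hu₀.smul g
  rw [h] at h1
  exact exists_eq_mul_pow hconst hm h1 (hu₀.pow a)

/-- **(KF3)** the order of a Kummer function at every place is divisible by the exponent. -/
theorem dvd_ord {m : ℕ} {x : Pic0 K F} {u : F} (hu : IsKummerRep m x u) (v : Place K F) :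
    (m : ℤ) ∣ v.ord u :=
  hu.dvd_ord v

end Fermat.Agent.S40x.R2.KFB
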