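import Fermat.Agent.S40x.R2.KFB.Modular
import Fermat.Agent.S40x.R2.Cover.Action
import Fermat.Agent.Lib.FrobeniusExists

/-!
# P-S44/S40, block C3, seam (KF) → (COV) → (DESC-INST) (helper49)

From a nonzero class `l₀ : JTors N p` to the concrete Kummer cover of `R2/Cover`, and from the shape
hypotheses (h1), (h2) of `c3_diagonal` to the hypotheses of `Kum/DescInst.descent_cover`.

* `exists_normalized_kummer` : every `x : JTors N p` has a Kummer function with leading
  `q`-coefficient `1`;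
* `rootAdmissible_kummer`    : such a function is `RootAdmissible p`;
* `not_pow_kummer`           : the Kummer function of a nonzero class is not a `p`-th power in `F`;
* `coverDatum`               : the cover datum `F(z)`, `z ^ p = f₀`, of a nonzero class;
* `galRho H`                 : a subgroup `H ≤ Γ` acting on the constants;
* `stable_of_eigen`          : `τ l₀ = a • l₀`, `τ ζ = ζ ^ a` ⟹ `Stable τ`;
* `hii_of_shape`             : hypothesis `hii` of `descent_cover` (witness `c = 1`);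
* `exists_finiteIndex_fixing`: the finite-index subgroup `G'` of `descent_cover`.
-/

set_option autoImplicit false
set_option linter.unusedSectionVars false

noncomputable section

namespace Fermat.Agent.S40x.R2.KFB

open AlgebraicCurve ModularCurve HahnSeries Fermat.Agent.Gateway.Kummer
open Fermat.Agent.Gateway.S31Red Fermat.Agent.S40x.R2.Cover

local notation "Qb" => AlgebraicClosure ℚ
local notation "Γℚ" => (AlgebraicClosure ℚ ≃ₐ[ℚ] AlgebraicClosure ℚ)

local instance isAlgebraicQb_seam : Algebra.IsAlgebraic ℚ (AlgebraicClosure ℚ) :=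
  AlgebraicClosure.isAlgebraic ℚ

variable {N : ℕ} [NeZero N] {p : ℕ}

theorem coe_algebraMap_bar (c : Qb) :
    ((algebraMap Qb (modularFunctionFieldBar N) c : modularFunctionFieldBar N) :
      LaurentSeries Qb) = HahnSeries.C c := by
  have h : ((algebraMap Qb (modularFunctionFieldBar N) c : modularFunctionFieldBar N) :
      LaurentSeries Qb) = algebraMap Qb (LaurentSeries Qb) c := rfl
  rw [h, algebraMap_laurentSeries_eq_single]
  rfl

/-- every `p`-torsion class has a normalised Kummer function -/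
theorem exists_normalized_kummer (x : JTors N p) :
    ∃ u : modularFunctionFieldBar N, IsKummerRep p (x : JZero N) u ∧
      Normalized (u : LaurentSeries Qb) := by
  obtain ⟨u, hu⟩ := exists_kummer x
  have hu0 : (u : LaurentSeries Qb) ≠ 0 := fun h => hu.ne_zero (Subtype.ext h)
  have hc : (u : LaurentSeries Qb).leadingCoeff⁻¹ ≠ 0 :=
    inv_ne_zero (HahnSeries.leadingCoeff_ne_zero.mpr hu0)
  refine ⟨algebraMap Qb (modularFunctionFieldBar N) (u : LaurentSeries Qb).leadingCoeff⁻¹ * u,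
    hu.const_mul hc, ?_⟩
  rw [MulMemClass.coe_mul, coe_algebraMap_bar]
  exact normalized_C_inv_mul hu0

/-- a normalised Kummer function is admissible for the normalised `p`-th root -/
theorem rootAdmissible_kummer {x : JZero N} {u : modularFunctionFieldBar N}
    (hu : IsKummerRep p x u) (hn : Normalized (u : LaurentSeries Qb)) :
    RootAdmissible p (u : LaurentSeries Qb) :=
  ⟨hn, kf3_order hu⟩

/-- the Kummer function of a nonzero class is not a `p`-th power -/
theorem not_pow_kummer (hp : p ≠ 0) {x : JZero N} (hx : x ≠ 0) {u : modularFunctionFieldBar N}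
    (hu : IsKummerRep p x u) (g : modularFunctionFieldBar N) : g ^ p ≠ u :=
  fun h => hx (hu.eq_zero_of_eq_pow hp h.symm)

theorem coe_ne_zero_of_ne_zero {l₀ : JTors N p} (hl₀ : l₀ ≠ 0) : (l₀ : JZero N) ≠ 0 :=
  fun h => hl₀ (Subtype.ext h)

/-- **The cover datum of a nonzero class.** -/
def coverDatum (hp : p.Prime) {ζ : Qb} (hζ : IsPrimitiveRoot ζ p) {l₀ : JTors N p}
    (hl₀ : l₀ ≠ 0) {f₀ : modularFunctionFieldBar N} (hf₀ : IsKummerRep p (l₀ : JZero N) f₀)
    (hn : Normalized (f₀ : LaurentSeries Qb)) : CoverDatum (modularFunctionFieldBar N) p where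
  prime := hp
  ne_zero := by exact_mod_cast hp.ne_zero
  ζ := ζ
  hζ := hζ
  f0 := f₀
  adm := rootAdmissible_kummer hf₀ hn
  not_pow := not_pow_kummer hp.ne_zero (coe_ne_zero_of_ne_zero hl₀) hf₀

@[simp] theorem coverDatum_f0 (hp : p.Prime) {ζ : Qb} (hζ : IsPrimitiveRoot ζ p) {l₀ : JTors N p}
    (hl₀ : l₀ ≠ 0) {f₀ : modularFunctionFieldBar N} (hf₀ : IsKummerRep p (l₀ : JZero N) f₀)
    (hn : Normalized (f₀ : LaurentSeries Qb)) : (coverDatum hp hζ hl₀ hf₀ hn).f0 = f₀ := rfl

@[simp] theorem coverDatum_zeta (hp : p.Prime) {ζ : Qb} (hζ : IsPrimitiveRoot ζ p)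
    {l₀ : JTors N p} (hl₀ : l₀ ≠ 0) {f₀ : modularFunctionFieldBar N}
    (hf₀ : IsKummerRep p (l₀ : JZero N) f₀) (hn : Normalized (f₀ : LaurentSeries Qb)) :
    (coverDatum hp hζ hl₀ hf₀ hn).ζ = ζ := rfl

/-- a subgroup of the Galois group acting on the constants -/
def galRho (H : Subgroup Γℚ) : H →* RingAut Qb where
  toFun g := (g : Γℚ).toRingEquiv
  map_one' := rfl
  map_mul' _ _ := rfl

@[simp] theorem galRho_apply (H : Subgroup Γℚ) (g : H) (c : Qb) : galRho H g c = (g : Γℚ) c := rfl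

theorem coeffMap_galRho (H : Subgroup Γℚ) (g : H) (x : LaurentSeries Qb) :
    coeffMap ((galRho H g : Qb ≃+* Qb) : Qb →+* Qb) x = coeffMap ((g : Γℚ) : Qb →+* Qb) x :=
  coeffMap_congr (RingHom.ext fun _ => rfl) x

theorem coeffMap_toRingEquiv (τ : Γℚ) (x : LaurentSeries Qb) :
    coeffMap ((τ.toRingEquiv : Qb ≃+* Qb) : Qb →+* Qb) x = coeffMap (τ : Qb →+* Qb) x :=
  coeffMap_congr (RingHom.ext fun _ => rfl) x

/-- **Stability of the cover under an automorphism acting on `l₀` and on `ζ` by the same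
exponent** (hypothesis (h1) of `c3_diagonal`). -/
theorem stable_of_eigen (hp : p.Prime) {ζ : Qb} (hζ : IsPrimitiveRoot ζ p) {l₀ : JTors N p}
    (hl₀ : l₀ ≠ 0) {f₀ : modularFunctionFieldBar N} (hf₀ : IsKummerRep p (l₀ : JZero N) f₀)
    (hn : Normalized (f₀ : LaurentSeries Qb)) (τ : Γℚ) (a : ℕ)
    (h : galTors N p τ l₀ = a • l₀) (hζa : τ ζ = ζ ^ a) :
    (coverDatum hp hζ hl₀ hf₀ hn).Stable τ.toRingEquiv where
  mapsF x hx := by
    rw [coeffMap_toRingEquiv]
    exact coeffMap_mem_laurentBaseChange τ hx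
  exists_exp := by
    obtain ⟨k, -, hk⟩ := kf2 hp.pos τ hf₀ a h
    refine ⟨a, k, ?_, hζa⟩
    rw [coeffMap_toRingEquiv]
    exact hk

/-- stability for the elements of a subgroup -/
theorem stable_galRho (hp : p.Prime) {ζ : Qb} (hζ : IsPrimitiveRoot ζ p) {l₀ : JTors N p}
    (hl₀ : l₀ ≠ 0) {f₀ : modularFunctionFieldBar N} (hf₀ : IsKummerRep p (l₀ : JZero N) f₀)
    (hn : Normalized (f₀ : LaurentSeries Qb)) (H : Subgroup Γℚ)
    (hH : ∀ τ ∈ H, ∃ a : ℕ, galTors N p τ l₀ = a • l₀ ∧ τ ζ = ζ ^ a) (g : H) :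
    (coverDatum hp hζ hl₀ hf₀ hn).Stable (galRho H g) := by
  obtain ⟨a, h, hζa⟩ := hH g g.2
  exact stable_of_eigen hp hζ hl₀ hf₀ hn g a h hζa

/-- **Hypothesis `hii` of `descent_cover`** from the shape hypothesis (h2) of `c3_diagonal`
(witness `c = 1`). -/
theorem hii_of_shape (hp : 0 < p) {x l₀ : JTors N p} {f f₀ : modularFunctionFieldBar N}
    (hf : IsKummerRep p (x : JZero N) f) (hf₀ : IsKummerRep p (l₀ : JZero N) f₀)
    (H : Subgroup Γℚ) (hH : ∀ τ ∈ H, ∃ j : ℕ, galTors N p τ x - x = j • l₀) (τ : H) :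
    ∃ (j : ℕ) (k : modularFunctionFieldBar N) (c : Qb), k ≠ 0 ∧ c ≠ 0 ∧
      coeffMap ((galRho H τ : Qb ≃+* Qb) : Qb →+* Qb) (f : LaurentSeries Qb) =
        (HahnSeries.C c : LaurentSeries Qb) * (f : LaurentSeries Qb) *
          (f₀ : LaurentSeries Qb) ^ j * (k : LaurentSeries Qb) ^ p := by
  obtain ⟨j, hj⟩ := hH τ τ.2
  obtain ⟨k, hk0, hk⟩ := kf1 hp τ hf hf₀ j hj
  refine ⟨j, k, 1, hk0, one_ne_zero, ?_⟩
  rw [coeffMap_galRho, hk, map_one, one_mul]

/-- **The finite-index subgroup `G'` of `descent_cover`.** -/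
theorem exists_finiteIndex_fixing (H : Subgroup Γℚ) (f : modularFunctionFieldBar N) :
    ∃ G' : Subgroup H, G'.FiniteIndex ∧
      ∀ γ ∈ G', coeffMap ((galRho H γ : Qb ≃+* Qb) : Qb →+* Qb) (f : LaurentSeries Qb) = f := by
  obtain ⟨K, hK, hfix⟩ := kf4 f
  haveI := hK
  refine ⟨(K.fixingSubgroup).subgroupOf H, ?_, fun γ hγ => ?_⟩
  · haveI : IsGalois ℚ Qb := Fermat.Agent.Lib.isGalois_algebraicClosure_rat
    haveI : (K.fixingSubgroup).FiniteIndex := by
      refine ⟨?_⟩
      rw [← IntermediateField.finrank_eq_fixingSubgroup_index]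
      exact Module.finrank_pos.ne'
    exact Subgroup.instFiniteIndex_subgroupOf _ _
  · rw [coeffMap_galRho]
    exact hfix γ fun a ha => hγ ⟨a, ha⟩

end Fermat.Agent.S40x.R2.KFB
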