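import Fermat.Agent.S40x.R2.KFB.CoverSeam
import Fermat.Agent.S40x.Kum.DescInst

/-!
# P-S44/S40, block C3: (KF) + (COV) + (DESC) in ONE call (helper49)

`x l₀ : JTors N p`, `l₀ ≠ 0`, `H ≤ Γ` a subgroup (inertia group, or the subgroup fixing `ζ`) with

* (h1) every `τ ∈ H` multiplies `l₀` by `a` and raises `ζ` to the power `a`;
* (h2) every `τ ∈ H` satisfies `τ x - x = j • l₀`.

Then, with `f f₀` normalised Kummer functions of `x l₀` and `D` the cover `F(z)`, `z ^ p = f₀`: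
there are `g h ∈ F(z)ˣ`, `β ∈ ℚ̄ˣ` such that `f g ^ p` and `h` are `H`-fixed, `β ^ p` is `H`-fixed,
`σ (f g ^ p) = β ^ p h ^ p (f g ^ p)` for the deck transformation `σ`, and
`τ β * ζ ^ j = β` whenever `τ ∈ H` and `τ x - x = j • l₀` (the Kummer class of the extension).
-/

set_option autoImplicit false
set_option linter.unusedSectionVars false

noncomputable section

namespace Fermat.Agent.S40x.R2.KFB

open AlgebraicCurve ModularCurve HahnSeries Fermat.Agent.Gateway.Kummer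
open Fermat.Agent.Gateway.S31Red Fermat.Agent.S40x.R2.Cover Fermat.Agent.S40x.Kum.DescInst

local notation "Qb" => AlgebraicClosure ℚ
local notation "Γℚ" => (AlgebraicClosure ℚ ≃ₐ[ℚ] AlgebraicClosure ℚ)

variable {N : ℕ} [NeZero N] {p : ℕ}

/-- **(KF) + (COV) + (DESC), explicit Kummer functions.** -/
theorem descent_of_shape' (hp : p.Prime) {ζ : Qb} (hζ : IsPrimitiveRoot ζ p) {x l₀ : JTors N p}
    (hl₀ : l₀ ≠ 0) {f f₀ : modularFunctionFieldBar N}
    (hf : IsKummerRep p (x : JZero N) f) (hfn : Normalized (f : LaurentSeries Qb))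
    (hf₀ : IsKummerRep p (l₀ : JZero N) f₀) (hn : Normalized (f₀ : LaurentSeries Qb))
    (H : Subgroup Γℚ)
    (h1 : ∀ τ ∈ H, ∃ a : ℕ, galTors N p τ l₀ = a • l₀ ∧ τ ζ = ζ ^ a)
    (h2 : ∀ τ ∈ H, ∃ j : ℕ, galTors N p τ x - x = j • l₀) :
    ∃ (g h : (coverDatum hp hζ hl₀ hf₀ hn).coverField) (β : Qb), g ≠ 0 ∧ h ≠ 0 ∧ β ≠ 0 ∧
      (∀ τ : H, (coverDatum hp hζ hl₀ hf₀ hn).coverGalois (galRho H)
          (stable_galRho hp hζ hl₀ hf₀ hn H h1) τ •
            (algebraMap (modularFunctionFieldBar N) (coverDatum hp hζ hl₀ hf₀ hn).coverField f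
              * g ^ p) =
          algebraMap (modularFunctionFieldBar N) (coverDatum hp hζ hl₀ hf₀ hn).coverField f
            * g ^ p) ∧
      (∀ τ : H, (coverDatum hp hζ hl₀ hf₀ hn).coverGalois (galRho H)
          (stable_galRho hp hζ hl₀ hf₀ hn H h1) τ • h = h) ∧
      (∀ τ ∈ H, τ (β ^ p) = β ^ p) ∧
      (coverDatum hp hζ hl₀ hf₀ hn).sigma
          (algebraMap (modularFunctionFieldBar N) (coverDatum hp hζ hl₀ hf₀ hn).coverField f
            * g ^ p) =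
        algebraMap Qb (coverDatum hp hζ hl₀ hf₀ hn).coverField (β ^ p) * h ^ p *
          (algebraMap (modularFunctionFieldBar N) (coverDatum hp hζ hl₀ hf₀ hn).coverField f
            * g ^ p) ∧
      ∀ τ ∈ H, ∀ j : ℕ, galTors N p τ x - x = j • l₀ → τ β * ζ ^ j = β := by
  obtain ⟨G', hG'fin, hG'⟩ := exists_finiteIndex_fixing H f
  haveI := hG'fin
  obtain ⟨g, h, β, hg0, hh0, hβ0, hft, hhfix, hβp, hσ, hkum⟩ :=
    descent_cover (coverDatum hp hζ hl₀ hf₀ hn) (galRho H)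
      (stable_galRho hp hζ hl₀ hf₀ hn H h1) hf.ne_zero hfn G' hG'
      (hii_of_shape hp.pos hf hf₀ H h2)
  refine ⟨g, h, β, hg0, hh0, hβ0, hft, hhfix, fun τ hτ => hβp ⟨τ, hτ⟩, hσ, ?_⟩
  intro τ hτ j hj
  obtain ⟨k, hk0, hk⟩ := kf1 hp.pos τ hf hf₀ j hj
  have := hkum ⟨τ, hτ⟩ j k 1 hk0 one_ne_zero (by
    rw [coeffMap_galRho, map_one, one_mul]
    exact hk)
  exact this

/-- **(KF) + (COV) + (DESC) in one call.** -/
theorem descent_of_shape (hp : p.Prime) {ζ : Qb} (hζ : IsPrimitiveRoot ζ p) {x l₀ : JTors N p}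
    (hl₀ : l₀ ≠ 0) (H : Subgroup Γℚ)
    (h1 : ∀ τ ∈ H, ∃ a : ℕ, galTors N p τ l₀ = a • l₀ ∧ τ ζ = ζ ^ a)
    (h2 : ∀ τ ∈ H, ∃ j : ℕ, galTors N p τ x - x = j • l₀) :
    ∃ (f f₀ : modularFunctionFieldBar N) (hf : IsKummerRep p (x : JZero N) f)
      (_ : Normalized (f : LaurentSeries Qb))
      (hf₀ : IsKummerRep p (l₀ : JZero N) f₀) (hn : Normalized (f₀ : LaurentSeries Qb))
      (g h : (coverDatum hp hζ hl₀ hf₀ hn).coverField) (β : Qb), g ≠ 0 ∧ h ≠ 0 ∧ β ≠ 0 ∧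
      (∀ τ : H, (coverDatum hp hζ hl₀ hf₀ hn).coverGalois (galRho H)
          (stable_galRho hp hζ hl₀ hf₀ hn H h1) τ •
            (algebraMap (modularFunctionFieldBar N) (coverDatum hp hζ hl₀ hf₀ hn).coverField f
              * g ^ p) =
          algebraMap (modularFunctionFieldBar N) (coverDatum hp hζ hl₀ hf₀ hn).coverField f
            * g ^ p) ∧
      (∀ τ : H, (coverDatum hp hζ hl₀ hf₀ hn).coverGalois (galRho H)
          (stable_galRho hp hζ hl₀ hf₀ hn H h1) τ • h = h) ∧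
      (∀ τ ∈ H, τ (β ^ p) = β ^ p) ∧
      (coverDatum hp hζ hl₀ hf₀ hn).sigma
          (algebraMap (modularFunctionFieldBar N) (coverDatum hp hζ hl₀ hf₀ hn).coverField f
            * g ^ p) =
        algebraMap Qb (coverDatum hp hζ hl₀ hf₀ hn).coverField (β ^ p) * h ^ p *
          (algebraMap (modularFunctionFieldBar N) (coverDatum hp hζ hl₀ hf₀ hn).coverField f
            * g ^ p) ∧
      ∀ τ ∈ H, ∀ j : ℕ, galTors N p τ x - x = j • l₀ → τ β * ζ ^ j = β := by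
  obtain ⟨f, hf, hfn⟩ := exists_normalized_kummer x
  obtain ⟨f₀, hf₀, hn⟩ := exists_normalized_kummer l₀
  exact ⟨f, f₀, hf, hfn, hf₀, hn, descent_of_shape' hp hζ hl₀ hf hfn hf₀ hn H h1 h2⟩

end Fermat.Agent.S40x.R2.KFB
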