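import Fermat.Agent.S40x.R2.KFB.DescentOfShape
import Fermat.Agent.S40x.R2.KummerPeu

/-!
# P-S44/S40, block C3: (KF) + (COV) + (DESC) + (KUM) in ONE call (helper49)

The local shape of `c3_diagonal` / GEO' at a valuation subring `B` of `ℚ̄` over `p`, for
`x l₀ : JTors N p`, `l₀ ≠ 0`, `I := B.inertiaSubgroupIn ℚ`:

* (h1) every `τ ∈ I` multiplies `l₀` by `a` and raises `ζ` to the power `a`;
* (h2) every `τ ∈ I` satisfies `τ x - x = j • l₀`;
* (h3) every `τ ∈ I` fixing all `b` with `b ^ p ∈ O₀ˣ` (`unitFixed B`) fixes `x`   (peu ramifié).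

Output: the data of `descent_of_shape` **and** `β ^ p = p ^ (p k) * u`, `u ∈ O₀ˣ`:
the constant `a = β ^ p` of `σ ft = a h ^ p ft` has `p`-adic valuation divisible by `p`.
-/

set_option autoImplicit false
set_option linter.unusedSectionVars false

noncomputable section

namespace Fermat.Agent.S40x.R2.KFB

open AlgebraicCurve ModularCurve HahnSeries Fermat.Agent.Gateway.Kummer
open Fermat.Agent.Gateway.S31Red Fermat.Agent.S40x.R2.Cover Fermat.Agent.S40x.Kummer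

local notation "Qb" => AlgebraicClosure ℚ
local notation "Γℚ" => (AlgebraicClosure ℚ ≃ₐ[ℚ] AlgebraicClosure ℚ)

variable {N : ℕ} [NeZero N] {p : ℕ}

/-- the glue: a constant `β` transforming by `τ β * ζ ^ j = β` whenever `τ x - x = j • l₀`, for a
peu ramifié class `x`, has `β ^ p = p ^ (p k) * unit`. -/
theorem peu_of_character (hp : p.Prime) {ζ : Qb} (B : ValuationSubring Qb)
    (hB : B.LiesOverPrime p) {x l₀ : JTors N p} {β : Qb} (hβ0 : β ≠ 0)
    (hβp : ∀ τ ∈ B.inertiaSubgroupIn ℚ, τ (β ^ p) = β ^ p)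
    (hchar : ∀ τ ∈ B.inertiaSubgroupIn ℚ, ∀ j : ℕ, galTors N p τ x - x = j • l₀ →
      τ β * ζ ^ j = β)
    (h3 : ∀ τ ∈ B.inertiaSubgroupIn ℚ, (∀ b : Qb, b ^ p ∈ unitFixed B → τ b = b) →
      galTors N p τ x = x) :
    ∃ k : ℤ, ∃ u ∈ unitFixed B, β ^ p = (p : Qb) ^ ((p : ℤ) * k) * u := by
  refine peu_dvd B hp hB hβ0 hβp fun τ hτ hfix => ?_
  have hx : galTors N p τ x - x = 0 • l₀ := by rw [h3 τ hτ hfix, sub_self, zero_smul]
  have := hchar τ hτ 0 hx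
  rwa [pow_zero, mul_one] at this

/-- **(KF) + (COV) + (DESC) + (KUM) in one call**, explicit Kummer functions. -/
theorem descent_peu' (hp : p.Prime) {ζ : Qb} (hζ : IsPrimitiveRoot ζ p) (B : ValuationSubring Qb)
    (hB : B.LiesOverPrime p) {x l₀ : JTors N p} (hl₀ : l₀ ≠ 0)
    {f f₀ : modularFunctionFieldBar N}
    (hf : IsKummerRep p (x : JZero N) f) (hfn : Normalized (f : LaurentSeries Qb))
    (hf₀ : IsKummerRep p (l₀ : JZero N) f₀) (hn : Normalized (f₀ : LaurentSeries Qb))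
    (h1 : ∀ τ ∈ B.inertiaSubgroupIn ℚ, ∃ a : ℕ, galTors N p τ l₀ = a • l₀ ∧ τ ζ = ζ ^ a)
    (h2 : ∀ τ ∈ B.inertiaSubgroupIn ℚ, ∃ j : ℕ, galTors N p τ x - x = j • l₀)
    (h3 : ∀ τ ∈ B.inertiaSubgroupIn ℚ, (∀ b : Qb, b ^ p ∈ unitFixed B → τ b = b) →
      galTors N p τ x = x) :
    ∃ (g h : (coverDatum hp hζ hl₀ hf₀ hn).coverField) (β : Qb), g ≠ 0 ∧ h ≠ 0 ∧ β ≠ 0 ∧
      (∀ τ : B.inertiaSubgroupIn ℚ, (coverDatum hp hζ hl₀ hf₀ hn).coverGalois
          (galRho (B.inertiaSubgroupIn ℚ))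
          (stable_galRho hp hζ hl₀ hf₀ hn (B.inertiaSubgroupIn ℚ) h1) τ •
            (algebraMap (modularFunctionFieldBar N) (coverDatum hp hζ hl₀ hf₀ hn).coverField f
              * g ^ p) =
          algebraMap (modularFunctionFieldBar N) (coverDatum hp hζ hl₀ hf₀ hn).coverField f
            * g ^ p) ∧
      (∀ τ : B.inertiaSubgroupIn ℚ, (coverDatum hp hζ hl₀ hf₀ hn).coverGalois
          (galRho (B.inertiaSubgroupIn ℚ))
          (stable_galRho hp hζ hl₀ hf₀ hn (B.inertiaSubgroupIn ℚ) h1) τ • h = h) ∧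
      (∀ τ ∈ B.inertiaSubgroupIn ℚ, τ (β ^ p) = β ^ p) ∧
      (coverDatum hp hζ hl₀ hf₀ hn).sigma
          (algebraMap (modularFunctionFieldBar N) (coverDatum hp hζ hl₀ hf₀ hn).coverField f
            * g ^ p) =
        algebraMap Qb (coverDatum hp hζ hl₀ hf₀ hn).coverField (β ^ p) * h ^ p *
          (algebraMap (modularFunctionFieldBar N) (coverDatum hp hζ hl₀ hf₀ hn).coverField f
            * g ^ p) ∧
      (∀ τ ∈ B.inertiaSubgroupIn ℚ, ∀ j : ℕ, galTors N p τ x - x = j • l₀ → τ β * ζ ^ j = β) ∧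
      ∃ k : ℤ, ∃ u ∈ unitFixed B, β ^ p = (p : Qb) ^ ((p : ℤ) * k) * u := by
  obtain ⟨g, h, β, hg0, hh0, hβ0, hft, hhfix, hβp, hσ, hchar⟩ :=
    descent_of_shape' hp hζ hl₀ hf hfn hf₀ hn (B.inertiaSubgroupIn ℚ) h1 h2
  exact ⟨g, h, β, hg0, hh0, hβ0, hft, hhfix, hβp, hσ, hchar,
    peu_of_character hp B hB hβ0 hβp hchar h3⟩

end Fermat.Agent.S40x.R2.KFB
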